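import Fermat.Agent.AVS.Stalk

/-!
# S26 (kb 66), block A1, second half: affine charts and stalks of a smooth scheme over a field
-/

set_option autoImplicit false

noncomputable section

universe u

open CategoryTheory CategoryTheory.Limits AlgebraicGeometry NeronModelInfra GoodReductionJacobian
open IsLocalRing TopologicalSpace
open Fermat.Agent.AVS

namespace Fermat.Agent.AVD

variable {K : Type u} [Field K] {A : Scheme.{u}} {f : A ⟶ Spec (CommRingCat.of K)}

/-- an open subset of `Spec K` containing a point is everything -/
theorem opens_eq_top (U : (Spec (CommRingCat.of K)).Opens) (x : Spec (CommRingCat.of K))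
    (hx : x ∈ U) : U = ⊤ := by
  refine top_unique fun y _ => ?_
  have : y = x := Subsingleton.elim (α := PrimeSpectrum K) _ _
  rw [this]
  exact hx

/-- every point of a smooth `K`-scheme of relative dimension `g` has an affine open neighbourhood
which is standard smooth of relative dimension `g` over `K`. -/
theorem exists_chart (f : A ⟶ Spec (CommRingCat.of K)) (g : ℕ) [SmoothOfRelativeDimension g f]
    (ξ : A) : ∃ V : A.Opens, IsAffineOpen V ∧ ξ ∈ V ∧
      RingHom.IsStandardSmoothOfRelativeDimension g (kSec f V) := by
  obtain ⟨U, hU, V, hV, hx, e, hf⟩ :=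
    SmoothOfRelativeDimension.exists_isStandardSmoothOfRelativeDimension (n := g) (f := f) ξ
  refine ⟨V, hV, hx, ?_⟩
  have hU' : U = ⊤ := opens_eq_top U (f ξ) (e hx)
  subst hU'
  have h1 : kSec f V = (f.appLE ⊤ V e).hom.comp
      (Scheme.ΓSpecIso (CommRingCat.of K)).inv.hom := by
    rw [← CommRingCat.hom_comp]
    rfl
  have h2 : RingHom.IsStandardSmoothOfRelativeDimension 0
      (Scheme.ΓSpecIso (CommRingCat.of K)).inv.hom :=
    RingHom.IsStandardSmoothOfRelativeDimension.equiv
      (Scheme.ΓSpecIso (CommRingCat.of K)).symm.commRingCatIsoToRingEquiv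
  rw [h1]
  exact add_zero g ▸ RingHom.IsStandardSmoothOfRelativeDimension.comp hf h2

end Fermat.Agent.AVD

end
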