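import Fermat.Agent.AVS.Stalk

/-!
# S26 (kb 66), block A1, second half: `[cod1]` and `[spec]` at scheme level
-/

set_option autoImplicit false

noncomputable section

universe u

open CategoryTheory CategoryTheory.Limits AlgebraicGeometry NeronModelInfra GoodReductionJacobian
open IsLocalRing
open Fermat.Agent.AVS

namespace Fermat.Agent.AVD

variable {K : Type u} [Field K] {A : Scheme.{u}} {f : A ⟶ Spec (CommRingCat.of K)}

/-- the `K`-structures of stalks are compatible with specialization maps -/
theorem stalkSpecializes_comp_kStalk {ξ' ξ : A} (h : ξ' ⤳ ξ) :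
    (A.presheaf.stalkSpecializes h).hom.comp (kStalk f ξ) = kStalk f ξ' := by
  unfold kStalk
  rw [← CommRingCat.hom_comp]
  simp only [Category.assoc, TopCat.Presheaf.germ_stalkSpecializes]

/-- the tautological point of a generization -/
theorem mapPt_stalkSpecializes {ξ' ξ : A} (h : ξ' ⤳ ξ) :
    mapPt (A.presheaf.stalkSpecializes h).hom (stalkSpecializes_comp_kStalk h) (stalkPt f ξ) =
      stalkPt f ξ' := by
  apply Subtype.ext
  rw [mapPt_coe, stalkPt_coe, stalkPt_coe]
  exact Scheme.SpecMap_stalkSpecializes_fromSpecStalk h

section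

variable [IrreducibleSpace A]

/-- the generic point specializes to every point -/
theorem genericPoint_specializes' (ξ : A) : genericPoint A ⤳ ξ :=
  (genericPoint_spec A).specializes trivial

/-- comparison of a local homomorphism from a stalk with the evaluation at the generic point -/
theorem comp_eq {O L : Type u} [CommRing O] [IsLocalRing O] [CommRing L]
    {iO : K →+* O} {iL : K →+* L} (j : O →+* L) (hj : j.comp iO = iL)
    (z : Pt f iO) (φ : A.functionField →+* L) (hφ : φ.comp (kStalk f (genericPoint A)) = iL)
    (h : mapPt φ hφ (stalkPt f (genericPoint A)) = mapPt j hj z) :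
    φ.comp (algebraMap (A.presheaf.stalk (center z)) A.functionField) =
      j.comp (stalkHom z) := by
  have h1 : (φ.comp (algebraMap (A.presheaf.stalk (center z)) A.functionField)).comp
      (kStalk f (center z)) = iL := by
    rw [RingHom.comp_assoc]
    have : (algebraMap (A.presheaf.stalk (center z)) A.functionField).comp
        (kStalk f (center z)) = kStalk f (genericPoint A) :=
      stalkSpecializes_comp_kStalk (f := f) (genericPoint_specializes' (center z))
    rw [this, hφ]
  have h2 : (j.comp (stalkHom z)).comp (kStalk f (center z)) = iL := by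
    rw [RingHom.comp_assoc, stalkHom_comp_kStalk, hj]
  refine stalkHom_unique h1 h2 ?_
  have h3 : mapPt (j.comp (stalkHom z)) h2 (stalkPt f (center z)) = mapPt j hj z := by
    rw [← mapPt_mapPt (stalkHom z) (stalkHom_comp_kStalk z) j hj, mapPt_stalkHom]
  have h4 : mapPt (φ.comp (algebraMap (A.presheaf.stalk (center z)) A.functionField)) h1
      (stalkPt f (center z)) = mapPt φ hφ (stalkPt f (genericPoint A)) := by
    rw [← mapPt_stalkSpecializes (f := f) (genericPoint_specializes' (center z))]
    exact (mapPt_mapPt _ _ _ _ _).symm
  rw [h3, h4, h]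

end

/-- `[cod1]` at scheme level: rational functions at a point whose center has a valuation ring as
local ring are defined or have a defined inverse, with values in the field of the center. -/
theorem cod1 [IsIntegral A] {O L κ : Type u} [CommRing O] [IsLocalRing O] [Field L] [Field κ]
    {iO : K →+* O} {iL : K →+* L} {iκ : K →+* κ} (j : O →+* L) (hj : j.comp iO = iL)
    (r : O →+* κ) [IsLocalHom r] (hr : r.comp iO = iκ)
    (z : Pt f iO) (φ : A.functionField →+* L) (hφ : φ.comp (kStalk f (genericPoint A)) = iL)
    (h : mapPt φ hφ (stalkPt f (genericPoint A)) = mapPt j hj z)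
    (hV : ValuationRing (A.presheaf.stalk (center z))) (x : A.functionField) :
    (∃ y : O, j y = φ x ∧ r y ∈ (stalkHom (mapPt r hr z)).range) ∨
    (∃ y : O, j y = (φ x)⁻¹ ∧ r y ∈ (stalkHom (mapPt r hr z)).range) := by
  have key := comp_eq j hj z φ hφ h
  have key2 : ∀ a : A.presheaf.stalk (center z),
      r (stalkHom z a) ∈ (stalkHom (mapPt r hr z)).range := by
    intro a
    have := stalkHom_mapPt r hr z
    exact ⟨_, RingHom.congr_fun this a⟩
  have key3 : ∀ a : A.presheaf.stalk (center z),
      j (stalkHom z a) = φ (algebraMap (A.presheaf.stalk (center z)) A.functionField a) :=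
    fun a => (RingHom.congr_fun key a).symm
  rcases ValuationRing.isInteger_or_isInteger (A.presheaf.stalk (center z)) x with h1 | h1
  · obtain ⟨a, ha⟩ := h1
    left
    exact ⟨stalkHom z a, by rw [key3, ha], key2 a⟩
  · obtain ⟨a, ha⟩ := h1
    right
    exact ⟨stalkHom z a, by rw [key3, ha, map_inv₀], key2 a⟩

/-- `[spec]` at scheme level: if the center is the generic point, the point factors through the
generic point. -/
theorem spec_of_center [IrreducibleSpace A] {O : Type u} [CommRing O] [IsLocalRing O]
    {iO : K →+* O} (z : Pt f iO) (hz : center z = genericPoint A) :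
    ∃ (φ : A.functionField →+* O) (hφ : φ.comp (kStalk f (genericPoint A)) = iO),
      mapPt φ hφ (stalkPt f (genericPoint A)) = z := by
  obtain ⟨ξ, φ, hφ, -, hξ, hz'⟩ := exists_stalk z
  have e : ξ = genericPoint A := by rw [← hξ, hz]
  subst e
  exact ⟨φ, hφ, hz'⟩

/-- `[spec]` at scheme level, with a residue map. -/
theorem spec [IrreducibleSpace A] {O κ : Type u} [CommRing O] [IsLocalRing O] [Field κ]
    {iO : K →+* O} {iκ : K →+* κ} (r : O →+* κ) [IsLocalHom r] (hr : r.comp iO = iκ)
    (z : Pt f iO) (hz : center (mapPt r hr z) = genericPoint A) :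
    ∃ (φ : A.functionField →+* O) (hφ : φ.comp (kStalk f (genericPoint A)) = iO),
      mapPt φ hφ (stalkPt f (genericPoint A)) = z :=
  spec_of_center z (by rw [← hz, center_mapPt])

end Fermat.Agent.AVD

end
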